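import Fermat.Agent.S55.G.CM.Spec

/-!
# S55 / layer G / block CM, leaf G-CM:DESCI                                    (helper587)

`descIncl_of : G.DescentSpec → DescInclSpec` (exact shape `DescInclAssemblySpec` of
`G/CM/Spec.lean`): descent for `π : Γ' ↠ G` and an embedding `φ : L → M`, equivariant along `π`,
with image the fixed field of `ker π`, as an inclusion of `ker π`-invariants
`ι : Res_π C_S(L) ⟶ C_S(M)`.

Proof: apply `G.DescentSpec` to `(Γ', M)`, the normal subgroup `ker π`, the field `L` with
`Algebra L M := φ.toAlgebra` and the action of `Γ' ⧸ ker π` on `L` through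
`QuotientGroup.kerLift π`; the representation of `Γ' ⧸ ker π` on `C_S(L)` is then definitionally
the pull-back of the representation of `G` (`cRepr_compHom`).
-/

set_option autoImplicit false
set_option linter.style.haveILetI false

open CategoryTheory groupCohomology
open scoped NumberField

noncomputable section

namespace Fermat.Agent.S55.G.CM.H587

open Fermat.Agent.S55 Fermat.Agent.S55.G Fermat.Agent.S55.G.Rec

/-- The representation on `C_S(L)` of a group acting on `L` through a homomorphism `f : H → G` is
the pull-back along `f` of the representation of `G`. -/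
theorem cRepr_compHom (S : Finset Nat.Primes) (H G L : Type) [Group H] [Group G] [Field L]
    [NumberField L] [MulSemiringAction G L] (f : H →* G) (h : H) :
    letI : MulSemiringAction H L := MulSemiringAction.compHom L f
    cRepr S H L h = cRepr S G L (f h) := rfl

/-- **G-CM:DESCI.** -/
theorem descIncl_of (hD : G.DescentSpec) : DescInclSpec := by
  intro S Γ' G M L _ _ _ _ _ _ _ _ _ _ π φ hπ hS hunr hequiv hfix
  letI : Algebra L M := φ.toAlgebra
  letI : MulSemiringAction (Γ' ⧸ π.ker) L :=
    MulSemiringAction.compHom L (QuotientGroup.kerLift π)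
  have h1 : ∀ x : M, (∀ n : π.ker, (n : Γ') • x = x) ↔ x ∈ (algebraMap L M).range := by
    intro x
    constructor
    · intro h
      obtain ⟨y, hy⟩ := hfix x (fun n hn => h ⟨n, MonoidHom.mem_ker.2 hn⟩)
      exact ⟨y, hy⟩
    · rintro ⟨y, rfl⟩ n
      have hn : π (n : Γ') = 1 := MonoidHom.mem_ker.1 n.2
      have := hequiv (n : Γ') y
      rw [hn, one_smul] at this
      exact this.symm
  have h2 : ∀ (g : Γ') (x : L),
      algebraMap L M ((g : Γ' ⧸ π.ker) • x) = g • algebraMap L M x := by
    intro g x
    exact hequiv g x
  obtain ⟨ι, hinj, heq, hinv, -⟩ := hD S Γ' M L π.ker hS hunr h1 h2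
  have hcomm : ∀ (g : Γ') (c : CS S L), ι (cRepr S G L (π g) c) = cRepr S Γ' M g (ι c) :=
    fun g c => heq g c
  refine ⟨Rep.ofHom ⟨ι.toIntLinearMap, fun g => ?_⟩, ?_, ?_⟩
  · ext c
    exact hcomm g c
  · exact hinj
  · intro c hc
    exact (hinv c).1 (fun n => hc (n : Γ') n.2)

/-- The same, in the shape `DescInclAssemblySpec`. -/
theorem descInclAssembly : DescInclAssemblySpec := descIncl_of

end Fermat.Agent.S55.G.CM.H587
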